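import Fermat.Agent.S19.H859.UBField

/-!
# Cell A3 (S19), node UB (helper859): the equivariant elements of a local order span it

Main result: `spanningStatement : Fermat.Agent.S19.Unr.SpanningStatement`.

Proof (one-shot orbit trace).  Let `h ∈ B` be inertia-equivariant, `F` a number field such that
`U = Gal(Q̄/F) ⊇ I` fixes `h` (`UBField`).  For an integer `θ` of `F` the orbit trace
`T(θ) = ∑_{c ∈ G/U} c(θ) · (c · h)` is Galois-equivariant.  Choose `θ = r · j₀` where
`j₀ ≡ 1 mod 𝔪_V` and `c(j₀) ∈ ℓ^n V` for the cosets `c` not meeting the decomposition group `D`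
(`exists_crt`, uses (T1)); then `T(θ) ∈ B` and
`T(θ) ≡ ∑_{c ∈ DU/U} c(r) · (c · h)  mod 𝔪 B`.  The residue characters `r ↦ c(r) mod 𝔪`,
`c ∈ DU/U`, are pairwise distinct ((T2)), hence linearly independent (Dedekind), so a
`V`-combination of the `T(r_i j₀)` is `≡ h mod 𝔪 B`.  Nakayama finishes.
-/

set_option autoImplicit false
set_option linter.style.haveILetI false
set_option linter.unusedSectionVars false
set_option linter.unusedVariables false

open scoped Pointwise

namespace Fermat.Agent.S19.H859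

open Fermat.Agent.S19 Fermat.Agent.S19.Unr Fermat.Agent.S14.H714

variable {M : Type} {V : ValuationSubring Qb} {ℓ : ℕ}

/-- `r ↦ σ r`, from the integers of `F` to `V`. -/
noncomputable def evHom (F : IntermediateField ℚ Qb) (V : ValuationSubring Qb) (σ : GalQ) :
    RF F →+* V where
  toFun r := ⟨σ ((r : Zbar) : Qb), mem_of_isIntegral V (((r : Zbar).2).map σ)⟩
  map_one' := Subtype.ext (by simp)
  map_mul' a b := Subtype.ext (by simp)
  map_zero' := Subtype.ext (by simp)
  map_add' a b := Subtype.ext (by simp)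

theorem coe_evHom (F : IntermediateField ℚ Qb) (V : ValuationSubring Qb) (σ : GalQ) (r : RF F) :
    ((evHom F V σ r : V) : Qb) = σ ((r : Zbar) : Qb) := rfl

theorem apply_RF_of_mem {F : IntermediateField ℚ Qb} (r : RF F) {u : GalQ}
    (hu : u ∈ F.fixingSubgroup) : u ((r : Zbar) : Qb) = ((r : Zbar) : Qb) := by
  have := r.2 ⟨u, hu⟩
  exact congrArg Subtype.val this

theorem smul_fun_eq (v : V) (f : M → Qb) : v • f = fun m => (v : Qb) * f m := by
  funext m
  rfl

theorem smul_mem_B (B : Subalgebra V (M → Qb)) (v : V) {f : M → Qb} (hf : f ∈ B) :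
    v • f ∈ B := B.smul_mem hf v

/-- A uniform exponent: `ℓ ^ n` times any of finitely many functions is `ℓ` times an element of
`B`. -/
theorem exists_uniform_pow [Finite M] (hℓ : ℓ.Prime) (hV : (ℓ : Qb) ∈ V.nonunits)
    (B : Subalgebra V (M → Qb)) (hval : ∀ h ∈ B, ∀ m, h m ∈ V)
    (hsep : ∀ m m' : M, (∀ h ∈ B, h m = h m') → m = m')
    {C : Type*} [Finite C] (g : C → M → Qb) :
    ∃ n : ℕ, ∀ c, ∃ g' ∈ B, ∀ m, (ℓ : Qb) ^ n * g c m = (ℓ : Qb) * g' m := by
  classical
  haveI := Fintype.ofFinite M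
  haveI := Fintype.ofFinite C
  obtain ⟨n₂, hn₂⟩ := exists_conductor hℓ hV B hval hsep
  choose n₁ hn₁ using fun p : C × M => exists_pow_mul_mem hℓ hV (g p.1 p.2)
  let N₁ := ∑ p : C × M, n₁ p
  have hℓV : (ℓ : Qb) ∈ V := mem_of_mem_nonunits V hV
  have hN₁ : ∀ c m, (ℓ : Qb) ^ N₁ * g c m ∈ V := by
    intro c m
    have hle : n₁ (c, m) ≤ N₁ :=
      Finset.single_le_sum (f := n₁) (fun _ _ => Nat.zero_le _) (Finset.mem_univ (c, m))
    obtain ⟨d, hd⟩ := Nat.exists_eq_add_of_le hle
    rw [hd, add_comm, pow_add, mul_assoc]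
    exact V.mul_mem _ _ (pow_mem hℓV d) (hn₁ (c, m))
  refine ⟨N₁ + n₂ + 1, fun c => ⟨fun m => (ℓ : Qb) ^ n₂ * ((ℓ : Qb) ^ N₁ * g c m),
    hn₂ _ (hN₁ c), fun m => ?_⟩⟩
  ring

section Main

variable [AddCommGroup M] {act : GalQ → M → M}

/-- The key congruence: an inertia-equivariant element of a local order is congruent modulo
`𝔪 B` to a `V`-combination of Galois-equivariant elements. -/
theorem mem_span_sup [Finite M] (hℓ : ℓ.Prime) (hV : (ℓ : Qb) ∈ V.nonunits)
    (hact : IsContAddAction act) (O : LocalOrder V M act) {h : M → Qb} (hB : h ∈ O.B)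
    (hin : IsInertiaEquivariant V act h) :
    h ∈ Submodule.span V O.equivariantElements ⊔
      (IsLocalRing.maximalIdeal V) • Subalgebra.toSubmodule O.B := by
  classical
  obtain ⟨F, hfin, hIF, hfix⟩ := exists_field_of_fun hact h hin
  letI : Fintype (GalQ ⧸ F.fixingSubgroup) := Fintype.ofFinite _
  -- the conjugates of `h`
  let g : GalQ ⧸ F.fixingSubgroup → (M → Qb) := fun c => conjFun act (Quotient.out c) h
  -- cosets meeting the decomposition group
  let isK : GalQ ⧸ F.fixingSubgroup → Prop :=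
    fun c => ∃ δ : GalQ, IsDecompAt V δ ∧ ((δ : GalQ) : GalQ ⧸ F.fixingSubgroup) = c
  have hKout : ∀ c, isK c → ∃ δ u, IsDecompAt V δ ∧ u ∈ F.fixingSubgroup ∧
      Quotient.out c = δ * u ∧ ((δ : GalQ) : GalQ ⧸ F.fixingSubgroup) = c := by
    rintro c ⟨δ, hδ, rfl⟩
    obtain ⟨u, hu⟩ := QuotientGroup.mk_out_eq_mul F.fixingSubgroup δ
    exact ⟨δ, u, hδ, u.2, hu, rfl⟩
  have hnKout : ∀ c, ¬ isK c → ∀ δ : GalQ, IsDecompAt V δ → ∀ u ∈ F.fixingSubgroup,
      Quotient.out c ≠ δ * u := by
    intro c hc δ hδ u hu heq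
    apply hc
    refine ⟨δ, hδ, ?_⟩
    have h1 : ((Quotient.out c : GalQ) : GalQ ⧸ F.fixingSubgroup) = c := QuotientGroup.out_eq' c
    rw [← h1, heq]
    exact (QuotientGroup.mk_mul_of_mem δ hu).symm
  have hgK : ∀ c, isK c → g c ∈ O.B := by
    intro c hc
    obtain ⟨δ, u, hδ, hu, hout, -⟩ := hKout c hc
    show conjFun act (Quotient.out c) h ∈ O.B
    rw [hout, conjFun_mul hact.act_mul, hfix u hu]
    exact O.stable δ hδ h hB
  let c₁ : GalQ ⧸ F.fixingSubgroup := ((1 : GalQ) : GalQ ⧸ F.fixingSubgroup)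
  have hc₁ : isK c₁ := ⟨1, isDecompAt_one, rfl⟩
  have hg₁ : g c₁ = h := by
    obtain ⟨u, hu⟩ := QuotientGroup.mk_out_eq_mul F.fixingSubgroup (1 : GalQ)
    show conjFun act (Quotient.out c₁) h = h
    rw [show Quotient.out c₁ = (1 : GalQ) * u from hu, one_mul]
    exact hfix u u.2
  -- the uniform exponent and the approximation element
  obtain ⟨n, hn⟩ := exists_uniform_pow hℓ hV O.B O.valued O.separates g
  let S : Finset GalQ := (Finset.univ.filter fun c => ¬ isK c).image Quotient.out
  have hS : ∀ σ ∈ S, ∀ δ : GalQ, IsDecompAt V δ → ∀ u ∈ F.fixingSubgroup, σ ≠ δ * u := by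
    intro σ hσ
    obtain ⟨c, hc, rfl⟩ := Finset.mem_image.mp hσ
    exact hnKout c (Finset.mem_filter.mp hc).2
  obtain ⟨j₀, hj1, hjS⟩ := exists_crt (F := F) hℓ hV S hS n
  -- cosets outside `K`: the term is `𝔪 B`
  have hout : ∀ c, ¬ isK c → ∀ r : RF F, ∃ v ∈ IsLocalRing.maximalIdeal V, ∃ g' ∈ O.B,
      (evHom F V (Quotient.out c) (r * j₀)) • g c = v • g' := by
    intro c hc r
    obtain ⟨g', hg', hgg⟩ := hn c
    obtain ⟨b, hb, hbj⟩ := hjS (Quotient.out c)
      (Finset.mem_image.mpr ⟨c, Finset.mem_filter.mpr ⟨Finset.mem_univ _, hc⟩, rfl⟩)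
    have hmem : (Quotient.out c) ((r : Zbar) : Qb) * b * (ℓ : Qb) ∈ V.nonunits := by
      rw [mul_comm]
      refine nonunits_mul_mem V hV (V.mul_mem _ _ ?_ hb)
      exact mem_of_isIntegral V (((r : Zbar).2).map _)
    refine ⟨⟨_, mem_of_mem_nonunits V hmem⟩, ?_, g', hg', ?_⟩
    · rw [← ValuationSubring.coe_mem_nonunits_iff]
      exact hmem
    · rw [smul_fun_eq, smul_fun_eq]
      funext m
      show (Quotient.out c) (((r * j₀ : RF F) : Zbar) : Qb) * g c m = _
      have h1 : (((r * j₀ : RF F) : Zbar) : Qb) = ((r : Zbar) : Qb) * ((j₀ : Zbar) : Qb) := rfl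
      rw [h1, map_mul, hbj]
      have := hgg m
      calc (Quotient.out c) ((r : Zbar) : Qb) * ((ℓ : Qb) ^ n * b) * g c m
          = (Quotient.out c) ((r : Zbar) : Qb) * b * ((ℓ : Qb) ^ n * g c m) := by ring
        _ = (Quotient.out c) ((r : Zbar) : Qb) * b * ((ℓ : Qb) * g' m) := by rw [this]
        _ = (Quotient.out c) ((r : Zbar) : Qb) * b * (ℓ : Qb) * g' m := by ring
  -- cosets in `K`: `j₀` is `≡ 1`
  have hj₀K : ∀ c, isK c → IsLocalRing.residue V (evHom F V (Quotient.out c) j₀) = 1 := by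
    intro c hc
    obtain ⟨δ, u, hδ, hu, hout', -⟩ := hKout c hc
    rw [← sub_eq_zero, ← map_one (IsLocalRing.residue V), ← map_sub,
      IsLocalRing.residue_eq_zero_iff, ← ValuationSubring.coe_mem_nonunits_iff]
    show (Quotient.out c) ((j₀ : Zbar) : Qb) - 1 ∈ V.nonunits
    rw [hout']
    show δ (u ((j₀ : Zbar) : Qb)) - 1 ∈ V.nonunits
    rw [apply_RF_of_mem j₀ hu]
    have : δ ((j₀ : Zbar) : Qb) - 1 = δ (((j₀ : Zbar) : Qb) - 1) := by
      rw [map_sub, map_one]
    rw [this]
    exact (IsDecompAt_nonunits hδ _).mpr hj1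
  -- the residue characters
  let Kt := {c : GalQ ⧸ F.fixingSubgroup // isK c}
  let χ : Kt → (RF F →* IsLocalRing.ResidueField V) := fun c =>
    (((IsLocalRing.residue V).comp (evHom F V (Quotient.out c.1)) :
      RF F →+* IsLocalRing.ResidueField V) : RF F →* IsLocalRing.ResidueField V)
  have hχ : Function.Injective χ := by
    intro c c' hcc
    obtain ⟨δ, u, hδ, hu, hout1, hmk⟩ := hKout c.1 c.2
    obtain ⟨δ', u', hδ', hu', hout2, hmk'⟩ := hKout c'.1 c'.2
    have hres : ∀ r : RF F, δ ((r : Zbar) : Qb) - δ' ((r : Zbar) : Qb) ∈ V.nonunits := by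
      intro r
      have h1 := DFunLike.congr_fun hcc r
      have h2 : IsLocalRing.residue V (evHom F V (Quotient.out c.1) r) =
          IsLocalRing.residue V (evHom F V (Quotient.out c'.1) r) := h1
      rw [← sub_eq_zero, ← map_sub, IsLocalRing.residue_eq_zero_iff,
        ← ValuationSubring.coe_mem_nonunits_iff] at h2
      have h3 : (Quotient.out c.1) ((r : Zbar) : Qb) - (Quotient.out c'.1) ((r : Zbar) : Qb) ∈
          V.nonunits := h2
      rw [hout1, hout2] at h3
      have h4 : (δ * u) ((r : Zbar) : Qb) = δ ((r : Zbar) : Qb) := by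
        show δ (u ((r : Zbar) : Qb)) = _
        rw [apply_RF_of_mem r hu]
      have h5 : (δ' * u') ((r : Zbar) : Qb) = δ' ((r : Zbar) : Qb) := by
        show δ' (u' ((r : Zbar) : Qb)) = _
        rw [apply_RF_of_mem r hu']
      rwa [h4, h5] at h3
    have hmem := mem_fixingSubgroup_of_residue_eq (F := F) hℓ hV hIF hδ hδ' hres
    apply Subtype.ext
    rw [← hmk, ← hmk']
    exact (QuotientGroup.eq.mpr hmem).symm
  have hspan := span_range_characters_eq_top χ hχ
  have hmem : (Pi.single (⟨c₁, hc₁⟩ : Kt) (1 : IsLocalRing.ResidueField V) :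
      Kt → IsLocalRing.ResidueField V) ∈
      Submodule.span (IsLocalRing.ResidueField V)
        (Set.range fun r : RF F => (fun k : Kt => χ k r)) := by
    rw [hspan]
    trivial
  obtain ⟨N, a, gg, hsum⟩ := Submodule.mem_span_set'.mp hmem
  choose r hr using fun i => (gg i).2
  choose at' hat using fun i => IsLocalRing.residue_surjective (a i)
  have hsumk : ∀ k : Kt, ∑ i, a i * χ k (r i) = if k = ⟨c₁, hc₁⟩ then 1 else 0 := by
    intro k
    have h1 := congrFun hsum k
    rw [Finset.sum_apply] at h1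
    rw [Pi.single_apply] at h1
    rw [← h1]
    refine Finset.sum_congr rfl fun i _ => ?_
    rw [Pi.smul_apply, ← hr i]
    rfl
  -- the traces
  let θ : Fin N → RF F := fun i => r i * j₀
  let fθ : Fin N → (M → Qb) := fun i => fun m => (((θ i : RF F) : Zbar) : Qb) * h m
  have hfθ : ∀ i, ∀ u ∈ F.fixingSubgroup, conjFun act u (fθ i) = fθ i := by
    intro i u hu
    show conjFun act u (fun m => (((θ i : RF F) : Zbar) : Qb) * h m) = _
    rw [conjFun_const_mul, apply_RF_of_mem (θ i) hu, hfix u hu]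
  let T : Fin N → (M → Qb) := fun i => orbitTrace act F.fixingSubgroup (fθ i)
  have hTeq : ∀ i, T i = ∑ c, (evHom F V (Quotient.out c) (θ i)) • g c := by
    intro i
    show orbitTrace act F.fixingSubgroup (fθ i) = _
    unfold orbitTrace
    refine Finset.sum_congr rfl fun c _ => ?_
    show conjFun act (Quotient.out c) (fun m => (((θ i : RF F) : Zbar) : Qb) * h m) = _
    rw [conjFun_const_mul, smul_fun_eq]
    rfl
  have hTB : ∀ i, T i ∈ O.B := by
    intro i
    rw [hTeq]
    refine Subalgebra.sum_mem _ fun c _ => ?_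
    by_cases hc : isK c
    · exact smul_mem_B O.B _ (hgK c hc)
    · obtain ⟨v, -, g', hg', heq⟩ := hout c hc (r i)
      show (evHom F V (Quotient.out c) (r i * j₀)) • g c ∈ O.B
      rw [heq]
      exact smul_mem_B O.B _ hg'
  have hTequiv : ∀ i, IsEquivariant act (T i) := fun i =>
    isEquivariant_orbitTrace hact.act_one hact.act_mul F.fixingSubgroup (hfθ i)
  -- the combination
  let lam : GalQ ⧸ F.fixingSubgroup → V := fun c => ∑ i, at' i * evHom F V (Quotient.out c) (θ i)
  let ind : GalQ ⧸ F.fixingSubgroup → V := fun c => if c = c₁ then 1 else 0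
  have hX : ∑ i, at' i • T i = ∑ c, lam c • g c := by
    simp only [lam, hTeq, Finset.smul_sum, Finset.sum_smul, smul_smul]
    exact Finset.sum_comm
  have hXmem : ∑ i, at' i • T i ∈ Submodule.span V O.equivariantElements := by
    refine Submodule.sum_mem _ fun i _ => ?_
    exact Submodule.smul_mem _ _ (Submodule.subset_span ⟨hTB i, hTequiv i⟩)
  have hind : ∑ c, ind c • g c = h := by
    rw [Finset.sum_eq_single c₁]
    · simp only [ind, if_true, one_smul]
      exact hg₁
    · intro c _ hc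
      simp only [ind, if_neg hc, zero_smul]
    · intro hc
      exact absurd (Finset.mem_univ _) hc
  have hterm : ∀ c, (lam c - ind c) • g c ∈
      (IsLocalRing.maximalIdeal V) • Subalgebra.toSubmodule O.B := by
    intro c
    by_cases hc : isK c
    · refine Submodule.smul_mem_smul ?_ (hgK c hc)
      rw [← IsLocalRing.residue_eq_zero_iff, map_sub, sub_eq_zero]
      have h1 : IsLocalRing.residue V (lam c) = ∑ i, a i * χ ⟨c, hc⟩ (r i) := by
        simp only [lam, map_sum, map_mul, hat]
        refine Finset.sum_congr rfl fun i _ => ?_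
        show a i * IsLocalRing.residue V (evHom F V (Quotient.out c) (r i * j₀)) = _
        rw [map_mul, map_mul, hj₀K c hc, mul_one]
        rfl
      rw [h1, hsumk]
      by_cases hcc : c = c₁
      · subst hcc
        simp [ind]
      · have : (⟨c, hc⟩ : Kt) ≠ ⟨c₁, hc₁⟩ := fun h => hcc (congrArg Subtype.val h)
        simp [ind, hcc, this]
    · have hcc : c ≠ c₁ := fun h => hc (h ▸ hc₁)
      have h0 : ind c = 0 := by simp [ind, hcc]
      rw [h0, sub_zero]
      show (∑ i, at' i * evHom F V (Quotient.out c) (θ i)) • g c ∈ _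
      rw [Finset.sum_smul]
      refine Submodule.sum_mem _ fun i _ => ?_
      obtain ⟨v, hv, g', hg', heq⟩ := hout c hc (r i)
      rw [mul_smul]
      show at' i • (evHom F V (Quotient.out c) (r i * j₀)) • g c ∈ _
      rw [heq, ← mul_smul]
      exact Submodule.smul_mem_smul (Ideal.mul_mem_left _ _ hv) hg'
  have hfinal : h = ∑ i, at' i • T i + -(∑ c, (lam c - ind c) • g c) := by
    rw [hX]
    have : ∑ c, (lam c - ind c) • g c = ∑ c, lam c • g c - ∑ c, ind c • g c := by
      rw [← Finset.sum_sub_distrib]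
      refine Finset.sum_congr rfl fun c _ => ?_
      rw [sub_smul]
    rw [this, hind]
    abel
  rw [hfinal]
  refine Submodule.add_mem_sup hXmem (Submodule.neg_mem _ ?_)
  exact Submodule.sum_mem _ fun c _ => hterm c

/-- **Node UB**: the Galois-equivariant elements of a local order span it. -/
theorem spanningStatement : SpanningStatement := by
  intro ℓ hℓ M _ _ act hact V hV O
  have hprime : ℓ.Prime := hℓ.out
  have hle : Subalgebra.toSubmodule O.B ≤
      Submodule.span V O.equivariantElements ⊔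
        (IsLocalRing.maximalIdeal V) • Subalgebra.toSubmodule O.B := by
    refine le_trans O.span_inertia ?_
    rw [Submodule.span_le]
    rintro h ⟨hB, hin⟩
    exact mem_span_sup hprime hV hact O hB hin
  refine Submodule.le_of_le_smul_of_le_jacobson_bot O.fg ?_ hle
  rw [IsLocalRing.jacobson_eq_maximalIdeal ⊥ bot_ne_top]

end Main

end Fermat.Agent.S19.H859
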