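import Fermat.Agent.S19.H859.UBBasic
import Fermat.Agent.S19.H255.AddMem
import Fermat.Agent.S19.H499.Integral

/-!
# Cell A3 (S19), node UC (helper859): global coordinates from a local order spanned by its
Galois-equivariant elements

Main result: `coeffStatement : Fermat.Agent.S19.Unr.CoeffStatement`.

Proof.  `B` is a finitely generated `V`-module spanned by equivariant elements, hence spanned by a
FINITE set `H₀` of equivariant elements; these are the coordinates.  Integrality: all Galois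
conjugates of a value lie in `V` (`H499.isIntegral_of_forall_conj_mem`).  Addition: the
comultiplication of `B` gives `f (s+t) = Σ c_jk h_j(s) h_k(t)` with `c_jk ∈ V`; clearing the
denominators of the `c_jk` (units of `V`) gives the local relation required by the criterion
`H255.add_mem_of_local`.
-/

set_option autoImplicit false
set_option linter.style.haveILetI false
set_option linter.unusedSectionVars false
set_option linter.unusedVariables false

open scoped Pointwise

namespace Fermat.Agent.S19.H859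

open Fermat.Agent.S19 Fermat.Agent.S19.Unr Fermat.Agent.S14.H714

section Rat

variable {ℓ : ℕ} {V : ValuationSubring Qb}

/-- `V ∩ ℚ ⊆ ℤ_(ℓ)`. -/
theorem rat_mem_Rl_of_mem (hℓ : ℓ.Prime) (hV : (ℓ : Qb) ∈ V.nonunits) (r : ℚ)
    (hr : algebraMap ℚ Qb r ∈ V) : r ∈ Rl ℓ := by
  show r.den.Coprime ℓ
  by_contra hcop
  have hdvd : ℓ ∣ r.den := by
    by_contra hnd
    exact hcop ((Nat.Coprime.symm ((Nat.Prime.coprime_iff_not_dvd hℓ).mpr hnd)))
  obtain ⟨c, hc⟩ := hdvd
  have hden : ((r.den : ℤ) : Qb) ∈ V.nonunits := by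
    have : ((r.den : ℤ) : Qb) = (ℓ : Qb) * ((c : ℤ) : Qb) := by
      rw [hc]; push_cast; ring
    rw [this]
    exact nonunits_mul_mem V hV (intCast_mem V _)
  have hnum : ((r.num : ℤ) : Qb) ∈ V.nonunits := by
    have : ((r.num : ℤ) : Qb) = ((r.den : ℤ) : Qb) * algebraMap ℚ Qb r := by
      have h1 : (r.num : ℚ) = (r.den : ℚ) * r := by
        rw [mul_comm]; exact (Rat.mul_den_eq_num r).symm
      have h2 := congrArg (algebraMap ℚ Qb) h1
      rw [map_mul, map_intCast, map_natCast] at h2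
      rw [h2]; push_cast; ring
    rw [this]
    exact nonunits_mul_mem V hden hr
  have hdn : (ℓ : ℤ) ∣ r.num := by
    by_contra hnd
    exact intCast_not_mem_nonunits V hℓ hV hnd hnum
  have h1 : ℓ ∣ r.num.natAbs := Int.natCast_dvd.mp hdn
  have h2 : ℓ ∣ Nat.gcd r.num.natAbs r.den := Nat.dvd_gcd h1 ⟨c, hc⟩
  have h3 : Nat.gcd r.num.natAbs r.den = 1 := r.reduced
  rw [h3] at h2
  exact hℓ.one_lt.ne' (Nat.dvd_one.mp h2)

theorem isIntegral_Rl_of_int {c : Qb} (hc : IsIntegral ℤ c) : IsIntegral (Rl ℓ) c :=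
  hc.tower_top

end Rat

section Denom

variable {ℓ : ℕ} {V : ValuationSubring Qb} {X : Type*}

/-- `G` lies in `Z̄_(ℓ)[S]` up to a denominator which is an algebraic integer and a unit of
`V`. -/
def HasDenom (V : ValuationSubring Qb) (ℓ : ℕ) (S : Set (X → Qb)) (G : X → Qb) : Prop :=
  ∃ s : Qb, IsIntegral ℤ s ∧ s ∉ V.nonunits ∧ (fun x => s * G x) ∈ Algebra.adjoin (Zb ℓ) S

theorem const_mem_adjoin_Zb (S : Set (X → Qb)) {a : Qb} (ha : IsIntegral ℤ a) :
    (fun _ : X => a) ∈ Algebra.adjoin (Zb ℓ) S :=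
  (Algebra.adjoin (Zb ℓ) S).algebraMap_mem ⟨a, isIntegral_Rl_of_int ha⟩

theorem const_mul_mem_adjoin_Zb (S : Set (X → Qb)) {a : Qb} (ha : IsIntegral ℤ a)
    {f : X → Qb} (hf : f ∈ Algebra.adjoin (Zb ℓ) S) :
    (fun x => a * f x) ∈ Algebra.adjoin (Zb ℓ) S :=
  (Algebra.adjoin (Zb ℓ) S).mul_mem (const_mem_adjoin_Zb S ha) hf

theorem hasDenom_of_mem (S : Set (X → Qb)) {G : X → Qb}
    (hG : G ∈ Algebra.adjoin (Zb ℓ) S) : HasDenom V ℓ S G := by
  refine ⟨1, isIntegral_one, one_not_mem_nonunits V, ?_⟩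
  simpa using hG

theorem hasDenom_zero (S : Set (X → Qb)) : HasDenom V ℓ S (0 : X → Qb) :=
  hasDenom_of_mem S (Subalgebra.zero_mem _)

theorem hasDenom_add (S : Set (X → Qb)) {G₁ G₂ : X → Qb} (h₁ : HasDenom V ℓ S G₁)
    (h₂ : HasDenom V ℓ S G₂) : HasDenom V ℓ S (G₁ + G₂) := by
  obtain ⟨s₁, hs₁, hu₁, hm₁⟩ := h₁
  obtain ⟨s₂, hs₂, hu₂, hm₂⟩ := h₂
  refine ⟨s₁ * s₂, hs₁.mul hs₂, ?_, ?_⟩
  · rw [ValuationSubring.mem_nonunits_iff, not_lt] at hu₁ hu₂ ⊢
    rw [map_mul]
    have := mul_le_mul' hu₁ hu₂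
    rwa [one_mul] at this
  · have e : (fun x => s₁ * s₂ * (G₁ + G₂) x) =
        (fun x => s₂ * (s₁ * G₁ x)) + (fun x => s₁ * (s₂ * G₂ x)) := by
      funext x
      simp only [Pi.add_apply]
      ring
    rw [e]
    exact Subalgebra.add_mem _ (const_mul_mem_adjoin_Zb S hs₂ hm₁)
      (const_mul_mem_adjoin_Zb S hs₁ hm₂)

theorem hasDenom_smul (hℓ : ℓ.Prime) (hV : (ℓ : Qb) ∈ V.nonunits) (S : Set (X → Qb)) (v : V)
    {G : X → Qb} (h : HasDenom V ℓ S G) : HasDenom V ℓ S (v • G) := by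
  obtain ⟨s, hs, hu, hm⟩ := h
  obtain ⟨b, s', hs', hbs⟩ := exists_fraction V hℓ hV v.2
  refine ⟨(s' : Qb) * s, (s'.2).mul hs, ?_, ?_⟩
  · have hu' : (s' : Qb) ∉ V.nonunits := fun h => hs' (mem_primeOf.mpr h)
    rw [ValuationSubring.mem_nonunits_iff, not_lt] at hu hu' ⊢
    rw [map_mul]
    have := mul_le_mul' hu' hu
    rwa [one_mul] at this
  · have e : (fun x => (s' : Qb) * s * (v • G) x) = (fun x => (b : Qb) * (s * G x)) := by
      funext x
      have : (v • G) x = (v : Qb) * G x := rfl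
      rw [this, ← hbs]
      ring
    rw [e]
    exact const_mul_mem_adjoin_Zb S b.2 hm

theorem hasDenom_span (hℓ : ℓ.Prime) (hV : (ℓ : Qb) ∈ V.nonunits) (S : Set (X → Qb))
    (T : Set (X → Qb)) (hT : ∀ t ∈ T, HasDenom V ℓ S t) {G : X → Qb}
    (hG : G ∈ Submodule.span V T) : HasDenom V ℓ S G := by
  induction hG using Submodule.span_induction with
  | mem x hx => exact hT x hx
  | zero => exact hasDenom_zero S
  | add x y _ _ hx hy => exact hasDenom_add S hx hy
  | smul a x _ hx => exact hasDenom_smul hℓ hV S a hx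

end Denom

section Pull

variable {ℓ : ℕ} {M : Type}

theorem fst_mem_adjoin (S : Set (M → Qb)) {f : M → Qb} (hf : f ∈ Algebra.adjoin (Zb ℓ) S) :
    (fun p : M × M => f p.1) ∈ Algebra.adjoin (Zb ℓ) (coordFunctions S) := by
  induction hf using Algebra.adjoin_induction with
  | mem s hs => exact Algebra.subset_adjoin (Or.inl ⟨s, hs, rfl⟩)
  | algebraMap a => exact (Algebra.adjoin (Zb ℓ) (coordFunctions S)).algebraMap_mem a
  | add f g _ _ hf hg => exact Subalgebra.add_mem _ hf hg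
  | mul f g _ _ hf hg => exact Subalgebra.mul_mem _ hf hg

theorem snd_mem_adjoin (S : Set (M → Qb)) {f : M → Qb} (hf : f ∈ Algebra.adjoin (Zb ℓ) S) :
    (fun p : M × M => f p.2) ∈ Algebra.adjoin (Zb ℓ) (coordFunctions S) := by
  induction hf using Algebra.adjoin_induction with
  | mem s hs => exact Algebra.subset_adjoin (Or.inr ⟨s, hs, rfl⟩)
  | algebraMap a => exact (Algebra.adjoin (Zb ℓ) (coordFunctions S)).algebraMap_mem a
  | add f g _ _ hf hg => exact Subalgebra.add_mem _ hf hg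
  | mul f g _ _ hf hg => exact Subalgebra.mul_mem _ hf hg

end Pull

section Main

variable {ℓ : ℕ} {M : Type} [AddCommGroup M] {act : GalQ → M → M} {V : ValuationSubring Qb}

theorem isIntegral_of_equivariant (hℓ : ℓ.Prime) (hV : (ℓ : Qb) ∈ V.nonunits) {f : M → Qb}
    (hf : IsEquivariant act f) (hval : ∀ m, f m ∈ V) (m : M) : IsIntegral (Rl ℓ) (f m) := by
  refine Fermat.Agent.S19.H499.isIntegral_of_forall_conj_mem V.toSubring
    (fun q hq => rat_mem_Rl_of_mem hℓ hV q hq) (f m) (fun σ => ?_)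
  rw [← hf σ m]
  exact hval _

/-- A finitely generated module spanned by a set is spanned by a finite subset. -/
theorem exists_finset_span {R W : Type*} [CommRing R] [AddCommGroup W] [Module R W]
    {N : Submodule R W} (hN : N.FG) {T : Set W} (hT : N ≤ Submodule.span R T) :
    ∃ T₀ : Finset W, (↑T₀ : Set W) ⊆ T ∧ N ≤ Submodule.span R (↑T₀ : Set W) := by
  classical
  obtain ⟨S, hS⟩ := hN
  have h1 : ∀ s : W, ∃ T' : Finset W, s ∈ S → ((↑T' : Set W) ⊆ T ∧ s ∈ Submodule.span R (↑T' : Set W)) := by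
    intro s
    by_cases hs : s ∈ S
    · have hsN : s ∈ N := by
        rw [← hS]
        exact Submodule.subset_span hs
      obtain ⟨T', hT', hsT'⟩ := Submodule.mem_span_finite_of_mem_span (hT hsN)
      exact ⟨T', fun _ => ⟨hT', hsT'⟩⟩
    · exact ⟨∅, fun h => absurd h hs⟩
  choose T' hT' using h1
  refine ⟨S.biUnion T', ?_, ?_⟩
  · intro x hx
    rw [Finset.mem_coe, Finset.mem_biUnion] at hx
    obtain ⟨s, hs, hxs⟩ := hx
    exact (hT' s hs).1 hxs
  · rw [← hS, Submodule.span_le]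
    intro s hs
    have h2 : (↑(T' s) : Set W) ⊆ ↑(S.biUnion T') := by
      intro x hx
      rw [Finset.mem_coe, Finset.mem_biUnion]
      exact ⟨s, hs, hx⟩
    exact Submodule.span_mono h2 (hT' s hs).2

/-- **Node UC**: a local order spanned by its Galois-equivariant elements gives global
coordinates. -/
theorem coeffStatement : CoeffStatement := by
  intro ℓ hℓ' M _ _ act hact V hV O hspan
  classical
  have hℓ : ℓ.Prime := hℓ'.out
  obtain ⟨H₀, hH₀sub, hH₀span⟩ := exists_finset_span O.fg hspan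
  have hH₀B : ∀ f ∈ H₀, f ∈ O.B := fun f hf => (hH₀sub hf).1
  have hH₀eq : ∀ f ∈ H₀, IsEquivariant act f := fun f hf => (hH₀sub hf).2
  have hH₀int : ∀ f ∈ (↑H₀ : Set (M → Qb)), ∀ m : M, IsIntegral (Rl ℓ) (f m) := fun f hf m =>
    isIntegral_of_equivariant hℓ hV (hH₀eq f hf) (O.valued f (hH₀B f hf)) m
  have hsep : ∀ m m' : M, (∀ f ∈ (↑H₀ : Set (M → Qb)), f m = f m') → m = m' := by
    intro m m' hmm
    apply O.separates
    have key : ∀ h ∈ Submodule.span V (↑H₀ : Set (M → Qb)), h m = h m' := by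
      intro h hh'
      induction hh' using Submodule.span_induction with
      | mem x hx => exact hmm x hx
      | zero => rfl
      | add x y _ _ hx hy =>
        show x m + y m = x m' + y m'
        rw [hx, hy]
      | smul a x _ hx =>
        show a • x m = a • x m'
        rw [hx]
    intro h hh
    exact key h (hH₀span hh)
  -- denominators
  have hden₁ : ∀ b ∈ O.B, HasDenom V ℓ (↑H₀ : Set (M → Qb)) b := by
    intro b hb
    refine hasDenom_span hℓ hV _ (↑H₀ : Set (M → Qb)) ?_ (hH₀span hb)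
    intro t ht
    exact hasDenom_of_mem _ (Algebra.subset_adjoin ht)
  have hden₂ : ∀ G ∈ tensorFunctions (O.B : Set (M → Qb)),
      HasDenom V ℓ (coordFunctions (↑H₀ : Set (M → Qb))) G := by
    rintro G ⟨b, hb, b', hb', rfl⟩
    obtain ⟨s, hs, hu, hm⟩ := hden₁ b hb
    obtain ⟨s', hs', hu', hm'⟩ := hden₁ b' hb'
    refine ⟨s * s', hs.mul hs', ?_, ?_⟩
    · rw [ValuationSubring.mem_nonunits_iff, not_lt] at hu hu' ⊢
      rw [map_mul]
      have := mul_le_mul' hu hu'
      rwa [one_mul] at this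
    · have e : (fun p : M × M => s * s' * (b p.1 * b' p.2)) =
          (fun p : M × M => (fun m => s * b m) p.1) * (fun p : M × M => (fun m => s' * b' m) p.2) := by
        funext p
        simp only [Pi.mul_apply]
        ring
      rw [e]
      exact Subalgebra.mul_mem _ (fst_mem_adjoin _ hm) (snd_mem_adjoin _ hm')
  have hadd : ∀ f ∈ (↑H₀ : Set (M → Qb)), (fun p : M × M => f (p.1 + p.2)) ∈
      Algebra.adjoin (Zb ℓ) (coordFunctions (↑H₀ : Set (M → Qb))) := by
    intro f hf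
    obtain ⟨s, hs, hu, hm⟩ := hasDenom_span hℓ hV _ _ hden₂ (O.comul f (hH₀B f hf))
    refine Fermat.Agent.S19.H255.add_mem_of_local hℓ act hact.act_add (↑H₀ : Set (M → Qb))
      (fun g hg => hH₀eq g hg) hH₀int hsep V hV f (hH₀eq f hf) ?_
    intro m₀ m₀'
    exact ⟨_, hm, _, const_mem_adjoin_Zb _ hs, hu, fun m m' _ _ => rfl⟩
  refine ⟨{ ι := {f : M → Qb // f ∈ H₀}
            fin := Finite.of_fintype _
            Φ := fun m i => i.1 m
            inj := ?_
            equivariant := ?_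
            integral := ?_
            add_mem := ?_ }⟩
  · intro m m' hmm
    apply hsep
    intro f hf
    exact congrFun hmm ⟨f, hf⟩
  · intro σ m i
    exact hH₀eq i.1 i.2 σ m
  · intro m i
    exact hH₀int i.1 i.2 m
  · intro i
    refine Algebra.adjoin_mono ?_ (hadd i.1 i.2)
    rintro g (⟨h, hh, rfl⟩ | ⟨h, hh, rfl⟩)
    · exact Or.inl ⟨⟨h, hh⟩, rfl⟩
    · exact Or.inr ⟨⟨h, hh⟩, rfl⟩

end Main

end Fermat.Agent.S19.H859
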