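import Fermat.Agent.S19.Unr.Spec
import Fermat.Agent.S14.H714.Trans

/-!
# Cell A3 (S19), node UB (helper859): basic valuation-theoretic lemmas

`V` is a valuation subring of `Q̄` above a prime `ℓ`.

* decomposition / inertia conditions of `S19/Spec.lean`, `S19/Unr/Spec.lean` versus `σ • V = V`;
* `exists_pow_mul_mem`      : every `x ∈ Q̄` has `ℓ ^ n * x ∈ V` for some `n`;
* `exists_pow_eq_mul`       : every `a ∈ 𝔪_V` has `a ^ e ∈ ℓ ^ n V` for some `e` (rank one);
* `exists_conductor`        : a separating `V`-algebra `B` of `V`-valued functions on a finite set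
  contains `ℓ ^ n • f` for every `V`-valued `f`.
-/

set_option autoImplicit false
set_option linter.style.haveILetI false
set_option linter.unusedSectionVars false
set_option linter.unusedVariables false

open scoped Pointwise

namespace Fermat.Agent.S19.H859

open Fermat.Agent.S19 Fermat.Agent.S19.Unr Fermat.Agent.S14.H714

section Decomp

variable {V : ValuationSubring Qb}

theorem smul_eq_of_isDecompAt {σ : GalQ} (h : IsDecompAt V σ) : σ • V = V := by
  ext x
  rw [ValuationSubring.mem_pointwise_smul_iff_inv_smul_mem]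
  have h1 := h (σ⁻¹ • x)
  have h2 : σ (σ⁻¹ • x) = x := by
    show σ (σ⁻¹ x) = x
    exact σ.apply_symm_apply x
  rw [h2] at h1
  exact h1.symm

theorem isDecompAt_of_smul_eq {σ : GalQ} (h : σ • V = V) : IsDecompAt V σ := by
  intro a
  conv_lhs => rw [← h, ValuationSubring.mem_pointwise_smul_iff_inv_smul_mem]
  have : σ⁻¹ • σ a = a := by
    show σ⁻¹ (σ a) = a
    exact σ.symm_apply_apply a
  rw [this]

theorem isDecompAt_one : IsDecompAt V (1 : GalQ) := fun _ => Iff.rfl

theorem IsDecompAt_mul {σ τ : GalQ} (hσ : IsDecompAt V σ) (hτ : IsDecompAt V τ) :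
    IsDecompAt V (σ * τ) := fun a => (hσ (τ a)).trans (hτ a)

theorem IsDecompAt_inv {σ : GalQ} (hσ : IsDecompAt V σ) : IsDecompAt V σ⁻¹ := by
  intro a
  have := hσ (σ⁻¹ a)
  have h2 : σ (σ⁻¹ a) = a := σ.apply_symm_apply a
  rw [h2] at this
  exact this.symm

theorem IsDecompAt_nonunits {σ : GalQ} (hσ : IsDecompAt V σ) (a : Qb) :
    σ a ∈ V.nonunits ↔ a ∈ V.nonunits := by
  rw [ValuationSubring.mem_nonunits_iff_or, ValuationSubring.mem_nonunits_iff_or, ← map_inv₀,
    hσ a⁻¹]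
  simp

theorem isDecompAt_of_isInertiaAt {σ : GalQ} (hσ : IsInertiaAt V σ) : IsDecompAt V σ := by
  have hmem : ∀ a : Qb, a ∈ V → σ a ∈ V := by
    intro a ha
    have h1 := mem_of_mem_nonunits V (hσ a ha)
    have : σ a = (σ a - a) + a := by ring
    rw [this]
    exact V.add_mem _ _ h1 ha
  have hnon : ∀ a : Qb, a ∈ V.nonunits → σ a ∈ V.nonunits := by
    intro a ha
    have h1 := hσ a (mem_of_mem_nonunits V ha)
    have : σ a = (σ a - a) + a := by ring
    rw [this]
    exact nonunits_add_mem V h1 ha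
  intro a
  constructor
  · intro h
    by_contra hna
    have h1 : a⁻¹ ∈ V.nonunits := by
      rw [ValuationSubring.mem_nonunits_iff_or]
      right
      rwa [inv_inv]
    have h2 := hnon _ h1
    rw [map_inv₀, ValuationSubring.mem_nonunits_iff_or] at h2
    rcases h2 with h2 | h2
    · have h3 : σ a = 0 := by simpa using h2
      have h4 : a = 0 := by
        have := (map_eq_zero_iff σ σ.injective).mp h3
        exact this
      exact hna (h4 ▸ V.zero_mem)
    · rw [inv_inv] at h2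
      exact h2 h
  · exact hmem a

theorem isInertiaAt_one : IsInertiaAt V (1 : GalQ) := by
  intro a _
  show a - a ∈ V.nonunits
  rw [sub_self]
  exact V.nonunits.zero_mem

theorem IsInertiaAt_mul {σ τ : GalQ} (hσ : IsInertiaAt V σ) (hτ : IsInertiaAt V τ) :
    IsInertiaAt V (σ * τ) := by
  intro a ha
  have h1 : (σ * τ) a - a = σ (τ a - a) + (σ a - a) := by
    show σ (τ a) - a = _
    rw [map_sub]
    ring
  rw [h1]
  refine nonunits_add_mem V ?_ (hσ a ha)
  exact (IsDecompAt_nonunits (isDecompAt_of_isInertiaAt hσ) _).mpr (hτ a ha)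

theorem IsInertiaAt_inv {σ : GalQ} (hσ : IsInertiaAt V σ) : IsInertiaAt V σ⁻¹ := by
  intro a ha
  have hD := isDecompAt_of_isInertiaAt hσ
  have h1 : σ⁻¹ a - a = -(σ⁻¹ (σ a - a)) := by
    have : σ⁻¹ (σ a) = a := σ.symm_apply_apply a
    rw [map_sub, this]
    ring
  rw [h1]
  refine nonunits_neg_mem V ?_
  exact (IsDecompAt_nonunits (IsDecompAt_inv hD) _).mpr (hσ a ha)

/-- Inertia is normalised by the decomposition group. -/
theorem IsInertiaAt_conj {σ τ : GalQ} (hσ : IsDecompAt V σ) (hτ : IsInertiaAt V τ) :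
    IsInertiaAt V (σ⁻¹ * τ * σ) := by
  intro a ha
  have h1 : (σ⁻¹ * τ * σ) a - a = σ⁻¹ (τ (σ a) - σ a) := by
    show σ⁻¹ (τ (σ a)) - a = _
    have : σ⁻¹ (σ a) = a := σ.symm_apply_apply a
    rw [map_sub, this]
  rw [h1]
  refine (IsDecompAt_nonunits (IsDecompAt_inv hσ) _).mpr (hτ (σ a) ((hσ a).mpr ha))

/-- The inertia group of `V` as a subgroup of `Gal(Q̄/Q)`. -/
def inertiaSub (V : ValuationSubring Qb) : Subgroup GalQ where
  carrier := {σ | IsInertiaAt V σ}
  mul_mem' := fun hσ hτ => IsInertiaAt_mul hσ hτ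
  one_mem' := isInertiaAt_one
  inv_mem' := fun hσ => IsInertiaAt_inv hσ

theorem mem_inertiaSub {σ : GalQ} : σ ∈ inertiaSub V ↔ IsInertiaAt V σ := Iff.rfl

end Decomp

section Arch

variable {ℓ : ℕ} {V : ValuationSubring Qb}

/-- Every algebraic number becomes `V`-integral after multiplication by a power of `ℓ`. -/
theorem exists_pow_mul_mem (hℓ : ℓ.Prime) (hV : (ℓ : Qb) ∈ V.nonunits) (x : Qb) :
    ∃ n : ℕ, (ℓ : Qb) ^ n * x ∈ V := by
  obtain ⟨d, hd, hint⟩ := (Algebra.IsAlgebraic.isAlgebraic (R := ℤ) x).exists_integral_multiple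
  -- `d • x` integral
  have hdn : d.natAbs ≠ 0 := Int.natAbs_ne_zero.mpr hd
  obtain ⟨n, m, hm, hnm⟩ := Nat.exists_eq_pow_mul_and_not_dvd hdn ℓ hℓ.ne_one
  refine ⟨n, ?_⟩
  have hmint : ¬ (ℓ : ℤ) ∣ (m : ℤ) := by
    intro h
    exact hm (by exact_mod_cast h)
  have hmu := intCast_not_mem_nonunits V hℓ hV hmint
  obtain ⟨hm0, hminv⟩ := inv_mem_of_not_mem_nonunits V hmu
  have hyV : (d : Qb) * x ∈ V := by
    have := mem_of_isIntegral V hint
    rwa [zsmul_eq_mul] at this
  -- `d = ± ℓ^n * m`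
  have hdabs : ((d.natAbs : ℤ) : Qb) = (ℓ : Qb) ^ n * ((m : ℤ) : Qb) := by
    rw [hnm]
    push_cast
    ring
  have hl0 : (ℓ : Qb) ^ n ≠ 0 := pow_ne_zero _ (by exact_mod_cast hℓ.ne_zero)
  rcases Int.natAbs_eq d with h | h
  · have hdq : (d : Qb) = (ℓ : Qb) ^ n * ((m : ℤ) : Qb) := by
      rw [← hdabs]
      exact_mod_cast congrArg (fun z : ℤ => (z : Qb)) h
    have : (ℓ : Qb) ^ n * x = ((d : Qb) * x) * ((m : ℤ) : Qb)⁻¹ := by
      rw [hdq]
      field_simp
    rw [this]
    exact V.mul_mem _ _ hyV hminv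
  · have hdq : (d : Qb) = -((ℓ : Qb) ^ n * ((m : ℤ) : Qb)) := by
      rw [← hdabs]
      exact_mod_cast congrArg (fun z : ℤ => (z : Qb)) h
    have : (ℓ : Qb) ^ n * x = -(((d : Qb) * x) * ((m : ℤ) : Qb)⁻¹) := by
      rw [hdq]
      field_simp
    rw [this]
    exact V.neg_mem _ (V.mul_mem _ _ hyV hminv)

theorem aeval_int_mem {a : Qb} (ha : a ∈ V) (q : Polynomial ℤ) : Polynomial.aeval a q ∈ V := by
  induction q using Polynomial.induction_on' with
  | add p q hp hq =>
    rw [map_add]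
    exact V.add_mem _ _ hp hq
  | monomial n c =>
    rw [Polynomial.aeval_monomial]
    refine V.mul_mem _ _ ?_ (pow_mem ha n)
    have : (algebraMap ℤ Qb) c = ((c : ℤ) : Qb) := by simp
    rw [this]
    exact intCast_mem V c

theorem exists_pow_eq_mul_aux (hℓ : ℓ.Prime) (hV : (ℓ : Qb) ∈ V.nonunits) {a : Qb}
    (ha : a ∈ V.nonunits) :
    ∀ (n : ℕ) (p : Polynomial ℤ), p.natDegree ≤ n → (∃ i, ¬ (ℓ : ℤ) ∣ p.coeff i) →
      ∀ k : ℕ, (∃ b ∈ V, a ^ k * Polynomial.aeval a p = (ℓ : Qb) * b) →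
        ∃ e : ℕ, ∃ b ∈ V, a ^ e = (ℓ : Qb) * b := by
  have haV : a ∈ V := mem_of_mem_nonunits V ha
  intro n
  induction n with
  | zero =>
    intro p hp ⟨i, hi⟩ k ⟨b, hb, hk⟩
    have hpC : p = Polynomial.C (p.coeff 0) := Polynomial.eq_C_of_natDegree_le_zero hp
    have hi0 : ¬ (ℓ : ℤ) ∣ p.coeff 0 := by
      intro h
      apply hi
      rw [hpC, Polynomial.coeff_C]
      split_ifs
      · exact h
      · exact dvd_zero _
    have hu := intCast_not_mem_nonunits V hℓ hV hi0
    obtain ⟨hu0, huinv⟩ := inv_mem_of_not_mem_nonunits V hu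
    refine ⟨k, b * ((p.coeff 0 : ℤ) : Qb)⁻¹, V.mul_mem _ _ hb huinv, ?_⟩
    rw [hpC, Polynomial.aeval_C] at hk
    have hc : (algebraMap ℤ Qb) (p.coeff 0) = ((p.coeff 0 : ℤ) : Qb) := by simp
    rw [hc] at hk
    rw [← mul_assoc, ← hk]
    field_simp
  | succ n ih =>
    intro p hp ⟨i, hi⟩ k ⟨b, hb, hk⟩
    have hdecomp : Polynomial.aeval a p =
        Polynomial.aeval a p.divX * a + ((p.coeff 0 : ℤ) : Qb) := by
      conv_lhs => rw [← Polynomial.divX_mul_X_add p]
      simp
    by_cases h0 : (ℓ : ℤ) ∣ p.coeff 0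
    · -- lower the degree
      obtain ⟨c', hc'⟩ := h0
      have hi0 : i ≠ 0 := by
        rintro rfl
        exact hi ⟨c', hc'⟩
      obtain ⟨j, rfl⟩ := Nat.exists_eq_succ_of_ne_zero hi0
      have hdeg : p.divX.natDegree ≤ n := by
        rw [Polynomial.natDegree_divX_eq_natDegree_tsub_one]
        omega
      have hj : ¬ (ℓ : ℤ) ∣ p.divX.coeff j := by
        rw [Polynomial.coeff_divX]
        exact hi
      refine ih p.divX hdeg ⟨j, hj⟩ (k + 1) ⟨b - a ^ k * (c' : Qb), ?_, ?_⟩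
      · exact sub_mem hb (V.mul_mem _ _ (pow_mem haV k) (intCast_mem V c'))
      · rw [hdecomp, hc'] at hk
        push_cast at hk
        rw [mul_sub, ← hk]
        ring
    · -- the value is a unit
      have hu := intCast_not_mem_nonunits V hℓ hV h0
      have hval : Polynomial.aeval a p ∉ V.nonunits := by
        intro hmem
        apply hu
        have h1 : ((p.coeff 0 : ℤ) : Qb) = Polynomial.aeval a p - Polynomial.aeval a p.divX * a := by
          rw [hdecomp]
          ring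
        rw [h1]
        refine nonunits_sub_mem V hmem ?_
        rw [mul_comm]
        exact nonunits_mul_mem V ha (aeval_int_mem haV _)
      obtain ⟨hu0, huinv⟩ := inv_mem_of_not_mem_nonunits V hval
      refine ⟨k, b * (Polynomial.aeval a p)⁻¹, V.mul_mem _ _ hb huinv, ?_⟩
      rw [← mul_assoc, ← hk]
      field_simp

/-- Rank one: a power of every element of the maximal ideal is divisible by `ℓ`. -/
theorem exists_pow_eq_mul (hℓ : ℓ.Prime) (hV : (ℓ : Qb) ∈ V.nonunits) {a : Qb}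
    (ha : a ∈ V.nonunits) : ∃ e : ℕ, ∃ b ∈ V, a ^ e = (ℓ : Qb) * b := by
  obtain ⟨p, hp0, hp⟩ := Algebra.IsAlgebraic.isAlgebraic (R := ℤ) a
  have hprim := p.isPrimitive_primPart
  have hroot : Polynomial.aeval a p.primPart = 0 := Polynomial.aeval_primPart_eq_zero hp0 hp
  have hex : ∃ i, ¬ ((ℓ : ℤ) ∣ p.primPart.coeff i) := by
    by_contra hcon
    push Not at hcon
    have := hprim (ℓ : ℤ) ((Polynomial.C_dvd_iff_dvd_coeff _ _).mpr hcon)
    exact (Nat.prime_iff_prime_int.mp hℓ).not_isUnit this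
  refine exists_pow_eq_mul_aux hℓ hV ha _ p.primPart le_rfl hex 0 ⟨0, V.zero_mem, ?_⟩
  rw [hroot]
  simp

theorem exists_pow_eq_pow_mul (hℓ : ℓ.Prime) (hV : (ℓ : Qb) ∈ V.nonunits) {a : Qb}
    (ha : a ∈ V.nonunits) (n : ℕ) : ∃ e : ℕ, ∃ b ∈ V, a ^ e = (ℓ : Qb) ^ n * b := by
  obtain ⟨e, b, hb, he⟩ := exists_pow_eq_mul hℓ hV ha
  refine ⟨e * n, b ^ n, pow_mem hb n, ?_⟩
  rw [pow_mul, he, mul_pow]

end Arch

section Conductor

variable {ℓ : ℕ} {V : ValuationSubring Qb} {M : Type*}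

/-- The constant function with value `c ∈ V` lies in every `V`-algebra of functions. -/
theorem const_mem (B : Subalgebra V (M → Qb)) {c : Qb} (hc : c ∈ V) :
    (fun _ : M => c) ∈ B := by
  have := B.algebraMap_mem ⟨c, hc⟩
  exact this

theorem smul_fun_mem (B : Subalgebra V (M → Qb)) {c : Qb} (hc : c ∈ V) {f : M → Qb}
    (hf : f ∈ B) : (fun m => c * f m) ∈ B := by
  have := B.mul_mem (const_mem B hc) hf
  exact this

/-- **Conductor.** A separating `V`-algebra `B` of `V`-valued functions on a finite set contains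
`ℓ ^ n • f` for every `V`-valued function `f`. -/
theorem exists_conductor [Finite M] (hℓ : ℓ.Prime) (hV : (ℓ : Qb) ∈ V.nonunits)
    (B : Subalgebra V (M → Qb)) (hval : ∀ h ∈ B, ∀ m, h m ∈ V)
    (hsep : ∀ m m' : M, (∀ h ∈ B, h m = h m') → m = m') :
    ∃ n : ℕ, ∀ f : M → Qb, (∀ m, f m ∈ V) → (fun m => (ℓ : Qb) ^ n * f m) ∈ B := by
  classical
  haveI := Fintype.ofFinite M
  -- separating functions
  have hsep' : ∀ m₀ m : M, m ≠ m₀ → ∃ h ∈ B, h m₀ ≠ h m := by
    intro m₀ m hne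
    by_contra hcon
    push Not at hcon
    exact hne (hsep m₀ m hcon).symm
  -- scaled indicator functions
  have hind : ∀ m₀ : M, ∃ n : ℕ, (fun m => if m = m₀ then (ℓ : Qb) ^ n else 0) ∈ B := by
    intro m₀
    choose! h hB hne using hsep' m₀
    let e : M → Qb := ∏ m ∈ Finset.univ.erase m₀, (h m - fun _ => h m m)
    have heB : e ∈ B := by
      refine Subalgebra.prod_mem _ ?_
      intro m hm
      have hmne : m ≠ m₀ := (Finset.mem_erase.mp hm).1
      exact sub_mem (hB m hmne) (const_mem B (hval _ (hB m hmne) m))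
    have he0 : ∀ m, m ≠ m₀ → e m = 0 := by
      intro m hm
      simp only [e, Finset.prod_apply]
      refine Finset.prod_eq_zero (Finset.mem_erase.mpr ⟨hm, Finset.mem_univ m⟩) ?_
      simp
    have hed : e m₀ ≠ 0 := by
      simp only [e, Finset.prod_apply]
      rw [Finset.prod_ne_zero_iff]
      intro m hm
      have hmne : m ≠ m₀ := (Finset.mem_erase.mp hm).1
      simpa [sub_eq_zero] using hne m hmne
    obtain ⟨n, hn⟩ := exists_pow_mul_mem hℓ hV (e m₀)⁻¹
    refine ⟨n, ?_⟩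
    have := smul_fun_mem B hn heB
    convert this using 1
    funext m
    by_cases hm : m = m₀
    · subst hm
      rw [if_pos rfl]
      field_simp
    · simp only [if_neg hm, he0 m hm, mul_zero]
  choose N hN using hind
  refine ⟨∑ m₀, N m₀, ?_⟩
  intro f hf
  have hsum : (fun m => (ℓ : Qb) ^ (∑ m₀, N m₀) * f m) =
      ∑ m₀, (fun m => ((ℓ : Qb) ^ (∑ m₁ ∈ Finset.univ.erase m₀, N m₁) * f m₀) *
        (if m = m₀ then (ℓ : Qb) ^ N m₀ else 0)) := by
    funext m
    rw [Finset.sum_apply]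
    refine Eq.trans ?_ (Finset.sum_eq_single m ?_ ?_).symm
    · rw [if_pos rfl, ← Finset.add_sum_erase Finset.univ N (Finset.mem_univ m), pow_add]
      ring
    · intro b _ hb
      rw [if_neg (Ne.symm hb), mul_zero]
    · intro h
      exact absurd (Finset.mem_univ m) h
  rw [hsum]
  refine Subalgebra.sum_mem _ ?_
  intro m₀ _
  refine smul_fun_mem B ?_ (hN m₀)
  refine V.mul_mem _ _ (pow_mem ?_ _) (hf m₀)
  exact mem_of_mem_nonunits V hV

end Conductor

end Fermat.Agent.S19.H859
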