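import Fermat.Agent.S19.H859.UBSep

/-!
# Cell A3 (S19), node UB (helper859): the finite level of an inertia-equivariant function

For a function `h : M → Q̄` on a finite set with continuous Galois action which is equivariant under
the inertia group `I` of `V`, there is an intermediate field `F` with `Gal(Q̄/F)` of finite index,
containing `I`, and fixing `h` under the semilinear action.
-/

set_option autoImplicit false
set_option linter.style.haveILetI false
set_option linter.unusedSectionVars false
set_option linter.unusedVariables false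

open scoped Pointwise

namespace Fermat.Agent.S19.H859

open Fermat.Agent.S19 Fermat.Agent.S19.Unr Fermat.Agent.S14.H714

variable {M : Type} [AddCommGroup M] {act : GalQ → M → M} {V : ValuationSubring Qb}

theorem conjFun_eq_of_isInertiaAt {h : M → Qb} (hin : IsInertiaEquivariant V act h)
    (hact : IsContAddAction act) {τ : GalQ} (hτ : IsInertiaAt V τ) : conjFun act τ h = h := by
  funext m
  rw [conjFun_apply, hin τ⁻¹ (IsInertiaAt_inv hτ)]
  exact τ.apply_symm_apply (h m)

theorem exists_field_of_fun [Finite M] (hact : IsContAddAction act) (h : M → Qb)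
    (hin : IsInertiaEquivariant V act h) :
    ∃ F : IntermediateField ℚ Qb, Finite (GalQ ⧸ F.fixingSubgroup) ∧
      inertiaSub V ≤ F.fixingSubgroup ∧ ∀ u ∈ F.fixingSubgroup, conjFun act u h = h := by
  classical
  choose L hLfin hL using hact.cont
  let E : IntermediateField ℚ Qb := ⨆ m : M, (L m ⊔ IntermediateField.adjoin ℚ {h m})
  haveI : ∀ m, FiniteDimensional ℚ (L m) := hLfin
  haveI : ∀ m, FiniteDimensional ℚ (IntermediateField.adjoin ℚ {h m}) := fun m =>
    IntermediateField.adjoin.finiteDimensional (Algebra.IsIntegral.isIntegral (h m))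
  haveI hEfin : FiniteDimensional ℚ E := IntermediateField.finiteDimensional_iSup_of_finite
  have hEopen : IsOpen (E.fixingSubgroup : Set GalQ) := IntermediateField.fixingSubgroup_isOpen E
  let S := stabFun act hact.act_one hact.act_mul h
  have hNS : E.fixingSubgroup ≤ S := by
    intro σ hσ
    have hσ' : ∀ a ∈ E, σ a = a := fun a ha => hσ ⟨a, ha⟩
    have hσinv : ∀ a ∈ E, σ⁻¹ a = a := by
      intro a ha
      have := hσ' a ha
      conv_lhs => rw [← this]
      exact σ.symm_apply_apply a
    show conjFun act σ h = h
    funext m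
    rw [conjFun_apply]
    have hLE : L m ≤ E := le_trans le_sup_left (le_iSup (fun m : M => L m ⊔ _) m)
    have hhE : h m ∈ E := by
      have h1 : IntermediateField.adjoin ℚ {h m} ≤ E :=
        le_trans le_sup_right (le_iSup (fun m : M => L m ⊔ IntermediateField.adjoin ℚ {h m}) m)
      exact h1 (IntermediateField.mem_adjoin_simple_self ℚ (h m))
    rw [hL m σ⁻¹ (fun a ha => hσinv a (hLE ha))]
    exact hσ' _ hhE
  have hIS : inertiaSub V ≤ S := fun τ hτ => conjFun_eq_of_isInertiaAt hin hact hτ
  let U₀ : Subgroup GalQ := inertiaSub V ⊔ E.fixingSubgroup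
  have hU₀open : IsOpen (U₀ : Set GalQ) := Subgroup.isOpen_mono le_sup_right hEopen
  have hU₀closed : IsClosed (U₀ : Set GalQ) := Subgroup.isClosed_of_isOpen U₀ hU₀open
  let F : IntermediateField ℚ Qb := IntermediateField.fixedField U₀
  have hFU : F.fixingSubgroup = U₀ :=
    InfiniteGalois.fixingSubgroup_fixedField ⟨U₀, hU₀closed⟩
  refine ⟨F, ?_, ?_, ?_⟩
  · rw [hFU]
    exact Subgroup.quotient_finite_of_isOpen U₀ hU₀open
  · rw [hFU]
    exact le_sup_left
  · intro u hu
    rw [hFU] at hu
    exact (sup_le hIS hNS) hu

end Fermat.Agent.S19.H859
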