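import Fermat.Agent.S19.H859.UBTrace

/-!
# Cell A3 (S19), node UB (helper859): arithmetic input

`V` a valuation subring of `Q̄` above `ℓ`, `F` an intermediate field, `U = Gal(Q̄/F)`,
`R_F` = the ring of algebraic integers of `F` (as `FixedPoints.subalgebra ℤ Zbar U`).

* `exists_smul_eq_of_under_eq`, `exists_residue_eq_of_int` : variants of (T1), (T2) of
  `S14/H714/Trans.lean` with hypotheses on algebraic integers of `F` only (same proofs).
* `exists_sep`   : if `σ ∉ D · U` there is `r ∈ R_F` with `σ r ∈ 𝔪_V`, `r ∉ 𝔪_V`.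
* `exists_crt`   : for finitely many such `σ` and every `n` there is `r ∈ R_F` with
  `r ≡ 1 mod 𝔪_V` and `σ r ∈ ℓ ^ n V`.
* `mem_of_residue_eq` : if `δ, δ' ∈ D` induce the same map `R_F → V/𝔪_V` then `δ'⁻¹ δ ∈ U`
  (when `U` contains the inertia group).
-/

set_option autoImplicit false
set_option linter.style.haveILetI false
set_option linter.unusedSectionVars false
set_option linter.unusedVariables false

open scoped Pointwise

namespace Fermat.Agent.S19.H859

open Fermat.Agent.S19 Fermat.Agent.S19.Unr Fermat.Agent.S14.H714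

variable (F : IntermediateField ℚ Qb)

/-- The ring of algebraic integers of `F`. -/
noncomputable abbrev RF : Subalgebra ℤ Zbar := FixedPoints.subalgebra ℤ Zbar F.fixingSubgroup

variable {F}
variable {A A' : ValuationSubring Qb}

set_option synthInstance.maxHeartbeats 400000 in
set_option maxHeartbeats 1000000 in
/-- **(T1')** Valuation subrings whose primes have the same trace on the integers of `F` are
conjugate under `Gal(ℚ̄/F)`. -/
theorem exists_smul_eq_of_under_eq {ℓ : ℕ} (hℓ : ℓ.Prime) (hA : (ℓ : Qb) ∈ A.nonunits)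
    (hA' : (ℓ : Qb) ∈ A'.nonunits)
    (hunder : (primeOf A').under (RF F) = (primeOf A).under (RF F)) :
    ∃ ρ ∈ F.fixingSubgroup, ρ • A' = A := by
  letI : TopologicalSpace Zbar := ⊥
  haveI : DiscreteTopology Zbar := ⟨rfl⟩
  haveI : ContinuousSMul F.fixingSubgroup Zbar := by
    rw [continuousSMul_iff_stabilizer_isOpen]
    intro x
    have hopen := stabilizer_isOpen_of_isIntegral (K := ℚ) (L := Qb) (x : Qb)
    have : (MulAction.stabilizer F.fixingSubgroup x : Set F.fixingSubgroup) =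
        Subtype.val ⁻¹' (MulAction.stabilizer G (x : Qb) : Set G) := by
      ext g
      simp only [SetLike.mem_coe, MulAction.mem_stabilizer_iff, Set.mem_preimage, Subtype.ext_iff]
      rfl
    rw [this]
    exact hopen.preimage continuous_subtype_val
  obtain ⟨g, hg⟩ := Algebra.IsInvariant.exists_smul_of_under_eq_of_profinite
    (A := FixedPoints.subalgebra ℤ Zbar F.fixingSubgroup) (G := F.fixingSubgroup)
    (primeOf A') (primeOf A) hunder
  refine ⟨g.1, g.2, smul_eq_of_primeOf A A' hℓ hA hA' g.1 fun s => ?_⟩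
  rw [hg]
  exact (Ideal.smul_mem_pointwise_smul_iff (a := g) (S := primeOf A') (x := s)).symm

set_option synthInstance.maxHeartbeats 400000 in
set_option maxHeartbeats 1000000 in
/-- **(T2')** An element `σ` of the decomposition group of `A` acting trivially on the residues
of the integers of `F` agrees modulo the maximal ideal with an element of `Gal(ℚ̄/F)` in the
decomposition group. -/
theorem exists_residue_eq_of_int {ℓ : ℕ} (hℓ : ℓ.Prime) (hA : (ℓ : Qb) ∈ A.nonunits) (σ : G)
    (hσA : σ • A = A)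
    (hσF : ∀ r : RF F, σ ((r : Zbar) : Qb) - ((r : Zbar) : Qb) ∈ A.nonunits) :
    ∃ ρ ∈ F.fixingSubgroup, ρ • A = A ∧ ∀ x ∈ A, ρ x - σ x ∈ A.nonunits := by
  letI : TopologicalSpace Zbar := ⊥
  haveI : DiscreteTopology Zbar := ⟨rfl⟩
  haveI : ContinuousSMul F.fixingSubgroup Zbar := by
    rw [continuousSMul_iff_stabilizer_isOpen]
    intro x
    have hopen := stabilizer_isOpen_of_isIntegral (K := ℚ) (L := Qb) (x : Qb)
    have : (MulAction.stabilizer F.fixingSubgroup x : Set F.fixingSubgroup) =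
        Subtype.val ⁻¹' (MulAction.stabilizer G (x : Qb) : Set G) := by
      ext g
      simp only [SetLike.mem_coe, MulAction.mem_stabilizer_iff, Set.mem_preimage, Subtype.ext_iff]
      rfl
    rw [this]
    exact hopen.preimage continuous_subtype_val
  set Q := primeOf A with hQ
  set R := FixedPoints.subalgebra ℤ Zbar F.fixingSubgroup with hR
  set P := Q.under R with hP
  haveI : Q.LiesOver P := ⟨rfl⟩
  -- `σ` stabilises `Q`
  have hσQ : σ ∈ MulAction.stabilizer G Q := by
    rw [MulAction.mem_stabilizer_iff]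
    ext s
    rw [Ideal.mem_pointwise_smul_iff_inv_smul_mem]
    have := mem_primeOf_smul_iff (inv_smul_eq_of_smul_eq hσA) s
    exact this.symm
  let l0 : (Zbar ⧸ Q) ≃ₐ[ℤ ⧸ Q.under ℤ] (Zbar ⧸ Q) :=
    Ideal.Quotient.stabilizerHom Q (Q.under ℤ) G ⟨σ, hσQ⟩
  have hl0 : ∀ b : Zbar, l0 (Ideal.Quotient.mk Q b) = Ideal.Quotient.mk Q (σ • b) := fun b => rfl
  let l : (Zbar ⧸ Q) ≃ₐ[R ⧸ P] (Zbar ⧸ Q) :=
    AlgEquiv.ofRingEquiv (f := l0.toRingEquiv) (fun r => by
      obtain ⟨r, rfl⟩ := Ideal.Quotient.mk_surjective r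
      rw [Ideal.Quotient.algebraMap_mk_of_liesOver]
      show l0 (Ideal.Quotient.mk Q (r : Zbar)) = Ideal.Quotient.mk Q (r : Zbar)
      rw [hl0, Ideal.Quotient.eq, mem_primeOf]
      exact hσF r)
  obtain ⟨⟨g, hgQ⟩, hgl⟩ :=
    Ideal.Quotient.stabilizerHom_surjective_of_profinite (G := F.fixingSubgroup) P Q l
  have hgb : ∀ b : Zbar, (g : G) • b - σ • b ∈ Q := by
    intro b
    have h2 := DFunLike.congr_fun hgl (Ideal.Quotient.mk Q b)
    have h3 : l (Ideal.Quotient.mk Q b) = Ideal.Quotient.mk Q (σ • b) := rfl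
    rw [h3] at h2
    rw [← Ideal.Quotient.eq]
    exact h2
  have hgQ' : ∀ s : Zbar, s ∈ Q ↔ (g : G) • s ∈ Q := by
    intro s
    rw [MulAction.mem_stabilizer_iff] at hgQ
    conv_rhs => rw [← hgQ]
    exact (Ideal.smul_mem_pointwise_smul_iff (a := g) (S := Q) (x := s)).symm
  have hgA : (g : G) • A = A := smul_eq_of_primeOf A A hℓ hA hA g.1 hgQ'
  refine ⟨g.1, g.2, hgA, fun x hx => ?_⟩
  obtain ⟨b, s, hs, hxs⟩ := exists_fraction A hℓ hA hx
  have hgs : ((g : G) • s) ∉ Q := fun h => hs ((hgQ' s).mpr h)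
  have hσs : (σ • s) ∉ Q := by
    intro h
    apply hs
    have := (mem_primeOf_smul_iff (inv_smul_eq_of_smul_eq hσA) (σ • s)).mp h
    rwa [inv_smul_smul] at this
  rw [mem_primeOf, coe_smul_Zbar] at hgs hσs
  obtain ⟨hgne, hginv⟩ := inv_mem_of_not_mem_nonunits A hgs
  obtain ⟨hσne, hσinv⟩ := inv_mem_of_not_mem_nonunits A hσs
  have e1 : (g : G) x * (g : G) (s : Qb) = (g : G) (b : Qb) := by rw [← map_mul, hxs]
  have e2 : σ x * σ (s : Qb) = σ (b : Qb) := by rw [← map_mul, hxs]
  have hb := mem_primeOf.mp (hgb b)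
  have hs' := mem_primeOf.mp (hgb s)
  have hb' : (g : G) (b : Qb) - σ (b : Qb) ∈ A.nonunits := hb
  have hs'' : (g : G) (s : Qb) - σ (s : Qb) ∈ A.nonunits := hs'
  have key : (g : G) x - σ x =
      (((g : G) (b : Qb) - σ (b : Qb)) - ((g : G) (s : Qb) - σ (s : Qb)) * σ x) *
        ((g : G) (s : Qb))⁻¹ := by
    rw [← e1, ← e2]
    field_simp
    ring
  rw [key]
  refine nonunits_mul_mem A (nonunits_sub_mem A hb' ?_) hginv
  exact nonunits_mul_mem A hs'' (apply_mem_of_smul_eq hσA hx)

section Sep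

variable {ℓ : ℕ} {V : ValuationSubring Qb}

theorem not_mem_nonunits_mul {a b : Qb} (ha : a ∉ V.nonunits) (hb : b ∉ V.nonunits) :
    a * b ∉ V.nonunits := by
  rw [ValuationSubring.mem_nonunits_iff, not_lt] at ha hb ⊢
  rw [map_mul]
  have := mul_le_mul' ha hb
  rwa [one_mul] at this

end Sep

end Fermat.Agent.S19.H859
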