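import Fermat.Agent.S19.H859.UBGalois

/-!
# Cell A3 (S19), node UB (helper859): separation, approximation, distinct residue characters
-/

set_option autoImplicit false
set_option linter.style.haveILetI false
set_option linter.unusedSectionVars false
set_option linter.unusedVariables false

open scoped Pointwise

namespace Fermat.Agent.S19.H859

open Fermat.Agent.S19 Fermat.Agent.S19.Unr Fermat.Agent.S14.H714

variable {F : IntermediateField ℚ Qb} {ℓ : ℕ} {V : ValuationSubring Qb}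

instance isIntegral_RF : Algebra.IsIntegral ℤ (RF F) := by
  constructor
  intro x
  have h : IsIntegral ℤ ((RF F).val x) := Algebra.IsIntegral.isIntegral _
  exact (isIntegral_algHom_iff (RF F).val Subtype.val_injective).mp h

theorem natCast_mem_primeOf (hV : (ℓ : Qb) ∈ V.nonunits) : ((ℓ : ℕ) : Zbar) ∈ primeOf V := by
  rw [mem_primeOf]
  simpa using hV

/-- The prime of the integers of `F` below a valuation subring above `ℓ` is maximal. -/
theorem isMaximal_under (hℓ : ℓ.Prime) (hV : (ℓ : Qb) ∈ V.nonunits) :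
    ((primeOf V).under (RF F)).IsMaximal := by
  haveI hprime : ((primeOf V).under (RF F)).IsPrime := Ideal.comap_isPrime _ _
  apply Ideal.isMaximal_of_isIntegral_of_isMaximal_comap (R := ℤ)
  have hp : (((primeOf V).under (RF F)).comap (algebraMap ℤ (RF F))).IsPrime :=
    Ideal.comap_isPrime _ _
  refine Ideal.IsPrime.isMaximal hp ?_
  intro hbot
  have hmem : ((ℓ : ℕ) : ℤ) ∈ ((primeOf V).under (RF F)).comap (algebraMap ℤ (RF F)) := by
    rw [Ideal.mem_comap, Ideal.under_def, Ideal.mem_comap]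
    have : algebraMap (RF F) Zbar (algebraMap ℤ (RF F) ((ℓ : ℕ) : ℤ)) = ((ℓ : ℕ) : Zbar) := by
      simp
    rw [this]
    exact natCast_mem_primeOf hV
  rw [hbot, Ideal.mem_bot] at hmem
  exact hℓ.ne_zero (by exact_mod_cast hmem)

theorem mem_under_iff {A : ValuationSubring Qb} (r : RF F) :
    r ∈ (primeOf A).under (RF F) ↔ ((r : Zbar) : Qb) ∈ A.nonunits := by
  rw [Ideal.under_def, Ideal.mem_comap, ← mem_primeOf]
  rfl

theorem smul_inv_smul_eq (σ : GalQ) (V : ValuationSubring Qb) : σ • (σ⁻¹ • V) = V :=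
  smul_inv_smul σ V

theorem mem_nonunits_inv_smul_iff (σ : GalQ) (s : Zbar) :
    (s : Qb) ∈ (σ⁻¹ • V).nonunits ↔ σ (s : Qb) ∈ V.nonunits := by
  have := mem_primeOf_smul_iff (A := V) (A' := σ⁻¹ • V) (τ := σ) (smul_inv_smul_eq σ V) s
  rw [mem_primeOf, mem_primeOf, coe_smul_Zbar] at this
  exact this

/-- **Separation.** If `σ ∉ D · Gal(Q̄/F)` there is an integer `r` of `F` with `σ r ∈ 𝔪_V` and
`r ∉ 𝔪_V`. -/
theorem exists_sep (hℓ : ℓ.Prime) (hV : (ℓ : Qb) ∈ V.nonunits) (σ : GalQ)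
    (hσ : ∀ δ : GalQ, IsDecompAt V δ → ∀ u ∈ F.fixingSubgroup, σ ≠ δ * u) :
    ∃ r : RF F, σ ((r : Zbar) : Qb) ∈ V.nonunits ∧ ((r : Zbar) : Qb) ∉ V.nonunits := by
  by_contra hcon
  push Not at hcon
  have hV' : (ℓ : Qb) ∈ (σ⁻¹ • V).nonunits := by
    have h1 := (mem_nonunits_inv_smul_iff (V := V) σ ((ℓ : ℕ) : Zbar)).mpr (by
      have : (((ℓ : ℕ) : Zbar) : Qb) = (ℓ : Qb) := by simp
      rw [this, map_natCast]
      exact hV)
    simpa using h1
  have hle : (primeOf (σ⁻¹ • V)).under (RF F) ≤ (primeOf V).under (RF F) := by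
    intro r hr
    rw [mem_under_iff] at hr ⊢
    exact hcon r ((mem_nonunits_inv_smul_iff σ (r : Zbar)).mp hr)
  have hmax : ((primeOf (σ⁻¹ • V)).under (RF F)).IsMaximal := isMaximal_under hℓ hV'
  have hne : (primeOf V).under (RF F) ≠ ⊤ := (isMaximal_under hℓ hV).ne_top
  have heq := hmax.eq_of_le hne hle
  obtain ⟨ρ, hρ, hρV⟩ := exists_smul_eq_of_under_eq (F := F) hℓ hV hV' heq
  have hδ : IsDecompAt V (ρ * σ⁻¹) := by
    apply isDecompAt_of_smul_eq
    rw [mul_smul]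
    exact hρV
  refine hσ (ρ * σ⁻¹)⁻¹ (IsDecompAt_inv hδ) ρ hρ ?_
  rw [mul_inv_rev, inv_inv, mul_assoc, inv_mul_cancel, mul_one]

theorem not_mem_nonunits_pow {a : Qb} (ha : a ∉ V.nonunits) (n : ℕ) : a ^ n ∉ V.nonunits := by
  induction n with
  | zero =>
    rw [pow_zero]
    exact one_not_mem_nonunits V
  | succ n ih =>
    rw [pow_succ]
    exact not_mem_nonunits_mul ih ha

theorem not_mem_nonunits_prod {ι : Type*} (s : Finset ι) (f : ι → Qb)
    (hf : ∀ i ∈ s, f i ∉ V.nonunits) : ∏ i ∈ s, f i ∉ V.nonunits := by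
  classical
  induction s using Finset.induction_on with
  | empty =>
    rw [Finset.prod_empty]
    exact one_not_mem_nonunits V
  | insert a s ha ih =>
    rw [Finset.prod_insert ha]
    exact not_mem_nonunits_mul (hf a (Finset.mem_insert_self a s))
      (ih fun i hi => hf i (Finset.mem_insert_of_mem hi))

theorem coe_prod_RF {ι : Type*} (s : Finset ι) (f : ι → RF F) :
    (((∏ i ∈ s, f i : RF F) : Zbar) : Qb) = ∏ i ∈ s, (((f i : RF F) : Zbar) : Qb) := by
  classical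
  induction s using Finset.induction_on with
  | empty => simp
  | insert a s ha ih =>
    rw [Finset.prod_insert ha, Finset.prod_insert ha, ← ih]
    rfl

/-- **Approximation.** For finitely many `σ ∉ D · Gal(Q̄/F)` and every `n` there is an integer
`r` of `F` with `r ≡ 1 mod 𝔪_V` and `σ r ∈ ℓ ^ n V` for all these `σ`. -/
theorem exists_crt (hℓ : ℓ.Prime) (hV : (ℓ : Qb) ∈ V.nonunits) (S : Finset GalQ)
    (hS : ∀ σ ∈ S, ∀ δ : GalQ, IsDecompAt V δ → ∀ u ∈ F.fixingSubgroup, σ ≠ δ * u) (n : ℕ) :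
    ∃ r : RF F, ((r : Zbar) : Qb) - 1 ∈ V.nonunits ∧
      ∀ σ ∈ S, ∃ b ∈ V, σ ((r : Zbar) : Qb) = (ℓ : Qb) ^ n * b := by
  classical
  have h1 : ∀ σ : GalQ, ∃ r : RF F, σ ∈ S →
      (σ ((r : Zbar) : Qb) ∈ V.nonunits ∧ ((r : Zbar) : Qb) ∉ V.nonunits) := by
    intro σ
    by_cases hσ : σ ∈ S
    · obtain ⟨r, hr⟩ := exists_sep (F := F) hℓ hV σ (hS σ hσ)
      exact ⟨r, fun _ => hr⟩
    · exact ⟨1, fun h => absurd h hσ⟩
  choose r hr using h1
  have h2 : ∀ σ : GalQ, ∃ e : ℕ, σ ∈ S →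
      ∃ b ∈ V, (σ ((r σ : Zbar) : Qb)) ^ e = (ℓ : Qb) ^ n * b := by
    intro σ
    by_cases hσ : σ ∈ S
    · obtain ⟨e, he⟩ := exists_pow_eq_pow_mul hℓ hV (hr σ hσ).1 n
      exact ⟨e, fun _ => he⟩
    · exact ⟨0, fun h => absurd h hσ⟩
  choose e he using h2
  let y : RF F := ∏ σ ∈ S, r σ ^ e σ
  have hyc : ((y : Zbar) : Qb) = ∏ σ ∈ S, (((r σ : RF F) : Zbar) : Qb) ^ e σ := by
    have := coe_prod_RF S (fun σ => r σ ^ e σ)
    rw [this]
    rfl
  have hy : ((y : Zbar) : Qb) ∉ V.nonunits := by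
    rw [hyc]
    exact not_mem_nonunits_prod S _ (fun σ hσ => not_mem_nonunits_pow (hr σ hσ).2 _)
  have hyσ : ∀ σ ∈ S, ∃ b ∈ V, σ ((y : Zbar) : Qb) = (ℓ : Qb) ^ n * b := by
    intro σ hσ
    obtain ⟨b, hb, hbe⟩ := he σ hσ
    refine ⟨b * ∏ τ ∈ S.erase σ, σ ((((r τ : RF F) : Zbar) : Qb) ^ e τ), ?_, ?_⟩
    · refine V.mul_mem _ _ hb (prod_mem ?_)
      intro τ _
      have hint : IsIntegral ℤ (σ ((((r τ : RF F) : Zbar) : Qb) ^ e τ)) := by
        have h0 : IsIntegral ℤ ((((r τ : RF F) : Zbar) : Qb) ^ e τ) :=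
          ((r τ : Zbar).2).pow _
        exact h0.map σ
      exact mem_of_isIntegral V hint
    · rw [hyc, map_prod, ← Finset.mul_prod_erase S _ hσ, map_pow, hbe]
      ring
  have hmax : ((primeOf V).under (RF F)).IsMaximal := isMaximal_under hℓ hV
  have hyP : y ∉ (primeOf V).under (RF F) := by
    rw [mem_under_iff]
    exact hy
  obtain ⟨z, i, hi, hzi⟩ := hmax.exists_inv hyP
  refine ⟨z * y, ?_, ?_⟩
  · have h3 : z * y - 1 = -i := by
      rw [← hzi]
      ring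
    have h4 : (((z * y : RF F) : Zbar) : Qb) - 1 = -(((i : RF F) : Zbar) : Qb) := by
      have := congrArg (fun t : RF F => ((t : Zbar) : Qb)) h3
      simpa using this
    rw [h4]
    exact nonunits_neg_mem V ((mem_under_iff i).mp hi)
  · intro σ hσ
    obtain ⟨b, hb, hbe⟩ := hyσ σ hσ
    refine ⟨σ ((z : Zbar) : Qb) * b, V.mul_mem _ _ ?_ hb, ?_⟩
    · exact mem_of_isIntegral V (((z : Zbar).2).map σ)
    · have : (((z * y : RF F) : Zbar) : Qb) = ((z : Zbar) : Qb) * ((y : Zbar) : Qb) := rfl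
      rw [this, map_mul, hbe]
      ring

/-- **Distinct residue characters.** If `δ, δ'` in the decomposition group induce the same map
from the integers of `F` to the residue field of `V`, then `δ'⁻¹ δ ∈ Gal(Q̄/F)`, provided the
latter contains the inertia group of `V`. -/
theorem mem_fixingSubgroup_of_residue_eq (hℓ : ℓ.Prime) (hV : (ℓ : Qb) ∈ V.nonunits)
    (hI : inertiaSub V ≤ F.fixingSubgroup) {δ δ' : GalQ} (hδ : IsDecompAt V δ)
    (hδ' : IsDecompAt V δ')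
    (h : ∀ r : RF F, δ ((r : Zbar) : Qb) - δ' ((r : Zbar) : Qb) ∈ V.nonunits) :
    δ'⁻¹ * δ ∈ F.fixingSubgroup := by
  have hρD : IsDecompAt V (δ'⁻¹ * δ) := IsDecompAt_mul (IsDecompAt_inv hδ') hδ
  have hρ : ∀ r : RF F, (δ'⁻¹ * δ) ((r : Zbar) : Qb) - ((r : Zbar) : Qb) ∈ V.nonunits := by
    intro r
    have h1 : (δ'⁻¹ * δ) ((r : Zbar) : Qb) - ((r : Zbar) : Qb) =
        δ'⁻¹ (δ ((r : Zbar) : Qb) - δ' ((r : Zbar) : Qb)) := by
      have : δ'⁻¹ (δ' ((r : Zbar) : Qb)) = ((r : Zbar) : Qb) := δ'.symm_apply_apply _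
      rw [map_sub, this]
      rfl
    rw [h1]
    exact (IsDecompAt_nonunits (IsDecompAt_inv hδ') _).mpr (h r)
  obtain ⟨g, hgF, hgV, hg⟩ := exists_residue_eq_of_int (F := F) hℓ hV (δ'⁻¹ * δ)
    (smul_eq_of_isDecompAt hρD) hρ
  have hgD : IsDecompAt V g := isDecompAt_of_smul_eq hgV
  have hτ : IsInertiaAt V (g⁻¹ * (δ'⁻¹ * δ)) := by
    intro x hx
    have h1 : (g⁻¹ * (δ'⁻¹ * δ)) x - x = -(g⁻¹ (g x - (δ'⁻¹ * δ) x)) := by
      have : g⁻¹ (g x) = x := g.symm_apply_apply x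
      rw [map_sub, this]
      show g⁻¹ ((δ'⁻¹ * δ) x) - x = _
      ring
    rw [h1]
    exact nonunits_neg_mem V ((IsDecompAt_nonunits (IsDecompAt_inv hgD) _).mpr (hg x hx))
  have hτF := hI hτ
  have := F.fixingSubgroup.mul_mem hgF hτF
  rwa [mul_inv_cancel_left] at this

end Fermat.Agent.S19.H859
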