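import Fermat.Agent.S19.H859.UBBasic

/-!
# Cell A3 (S19), node UB (helper859): the semilinear action on functions and orbit traces

* `conjFun act σ h = σ ∘ h ∘ act σ⁻¹` is an action of `Gal(Q̄/Q)` on `M → Q̄` by semilinear ring
  automorphisms; `h` is equivariant iff it is fixed by all `conjFun act σ`.
* `orbitTrace act U f = ∑_{c ∈ G/U} conjFun act c.out f` is Galois-equivariant when `f` is fixed
  by the finite-index subgroup `U`.
* `single_mem_span_range`: Dedekind independence in the form used by node UB.
-/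

set_option autoImplicit false
set_option linter.style.haveILetI false
set_option linter.unusedSectionVars false
set_option linter.unusedVariables false

open scoped Pointwise

namespace Fermat.Agent.S19.H859

open Fermat.Agent.S19 Fermat.Agent.S19.Unr Fermat.Agent.S14.H714

section ConjFun

variable {M : Type} {act : GalQ → M → M}

theorem conjFun_apply (σ : GalQ) (h : M → Qb) (m : M) :
    conjFun act σ h m = σ (h (act σ⁻¹ m)) := rfl

theorem conjFun_one (h1 : ∀ m, act 1 m = m) (h : M → Qb) : conjFun act 1 h = h := by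
  funext m
  show (1 : GalQ) (h (act (1 : GalQ)⁻¹ m)) = h m
  rw [inv_one, h1]
  rfl

theorem conjFun_mul (hmul : ∀ σ τ m, act (σ * τ) m = act σ (act τ m)) (σ τ : GalQ)
    (h : M → Qb) : conjFun act (σ * τ) h = conjFun act σ (conjFun act τ h) := by
  funext m
  show (σ * τ) (h (act (σ * τ)⁻¹ m)) = σ (τ (h (act τ⁻¹ (act σ⁻¹ m))))
  rw [mul_inv_rev, hmul]
  rfl

theorem conjFun_add (σ : GalQ) (f g : M → Qb) :
    conjFun act σ (f + g) = conjFun act σ f + conjFun act σ g := by
  funext m
  simp [conjFun]

theorem conjFun_zero (σ : GalQ) : conjFun act σ (0 : M → Qb) = 0 := by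
  funext m
  simp [conjFun]

theorem conjFun_mulfun (σ : GalQ) (f g : M → Qb) :
    conjFun act σ (f * g) = conjFun act σ f * conjFun act σ g := by
  funext m
  simp [conjFun]

theorem conjFun_const_mul (σ : GalQ) (c : Qb) (f : M → Qb) :
    conjFun act σ (fun m => c * f m) = fun m => σ c * conjFun act σ f m := by
  funext m
  simp [conjFun]

theorem conjFun_sum {ι : Type*} (σ : GalQ) (s : Finset ι) (f : ι → M → Qb) :
    conjFun act σ (∑ i ∈ s, f i) = ∑ i ∈ s, conjFun act σ (f i) := by
  classical
  induction s using Finset.induction_on with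
  | empty => simp [conjFun_zero]
  | insert a s ha ih => rw [Finset.sum_insert ha, Finset.sum_insert ha, conjFun_add, ih]

theorem isEquivariant_of_conjFun (h1 : ∀ m, act 1 m = m)
    (hmul : ∀ σ τ m, act (σ * τ) m = act σ (act τ m)) {h : M → Qb}
    (hh : ∀ σ : GalQ, conjFun act σ h = h) : IsEquivariant act h := by
  intro σ m
  have := congrFun (hh σ) (act σ m)
  rw [conjFun_apply, ← hmul, inv_mul_cancel, h1] at this
  exact this.symm

theorem conjFun_eq_of_isEquivariant (h1 : ∀ m, act 1 m = m)
    (hmul : ∀ σ τ m, act (σ * τ) m = act σ (act τ m)) {h : M → Qb}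
    (hh : IsEquivariant act h) (σ : GalQ) : conjFun act σ h = h := by
  funext m
  rw [conjFun_apply, ← hh σ, ← hmul, mul_inv_cancel, h1]

/-- The subgroup of `Gal(Q̄/Q)` fixing a function under `conjFun`. -/
def stabFun (act : GalQ → M → M) (h1 : ∀ m, act 1 m = m)
    (hmul : ∀ σ τ m, act (σ * τ) m = act σ (act τ m)) (h : M → Qb) : Subgroup GalQ where
  carrier := {σ | conjFun act σ h = h}
  mul_mem' := by
    intro σ τ hσ hτ
    show conjFun act (σ * τ) h = h
    rw [conjFun_mul hmul, hτ, hσ]
  one_mem' := conjFun_one h1 h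
  inv_mem' := by
    intro σ hσ
    show conjFun act σ⁻¹ h = h
    have h2 : conjFun act σ⁻¹ (conjFun act σ h) = h := by
      rw [← conjFun_mul hmul, inv_mul_cancel, conjFun_one h1]
    rwa [hσ] at h2

end ConjFun

section Trace

variable {M : Type} (act : GalQ → M → M)

/-- The orbit trace of a function over the cosets of a finite-index subgroup. -/
noncomputable def orbitTrace (U : Subgroup GalQ) [Fintype (GalQ ⧸ U)] (f : M → Qb) : M → Qb :=
  ∑ c : GalQ ⧸ U, conjFun act (Quotient.out c) f

variable {act}

theorem conjFun_out_smul (hmul : ∀ σ τ m, act (σ * τ) m = act σ (act τ m))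
    (U : Subgroup GalQ) {f : M → Qb} (hf : ∀ u ∈ U, conjFun act u f = f) (σ : GalQ)
    (c : GalQ ⧸ U) :
    conjFun act (Quotient.out (σ • c)) f = conjFun act (σ * Quotient.out c) f := by
  have hc : (σ • c : GalQ ⧸ U) = ((σ * Quotient.out c : GalQ) : GalQ ⧸ U) := by
    conv_lhs => rw [← QuotientGroup.out_eq' c]
    rfl
  obtain ⟨u, hu⟩ := QuotientGroup.mk_out_eq_mul U (σ * Quotient.out c)
  rw [hc, hu, conjFun_mul hmul, hf u u.2]

theorem conjFun_orbitTrace (hmul : ∀ σ τ m, act (σ * τ) m = act σ (act τ m))
    (U : Subgroup GalQ) [Fintype (GalQ ⧸ U)] {f : M → Qb}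
    (hf : ∀ u ∈ U, conjFun act u f = f) (σ : GalQ) :
    conjFun act σ (orbitTrace act U f) = orbitTrace act U f := by
  unfold orbitTrace
  rw [conjFun_sum]
  have h1 : ∀ c : GalQ ⧸ U, conjFun act σ (conjFun act (Quotient.out c) f) =
      conjFun act (Quotient.out (σ • c)) f := by
    intro c
    rw [conjFun_out_smul hmul U hf, conjFun_mul hmul]
  rw [Finset.sum_congr rfl (fun c _ => h1 c)]
  exact Equiv.sum_comp (MulAction.toPerm σ : Equiv.Perm (GalQ ⧸ U))
    (fun c => conjFun act (Quotient.out c) f)

theorem isEquivariant_orbitTrace (h1 : ∀ m, act 1 m = m)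
    (hmul : ∀ σ τ m, act (σ * τ) m = act σ (act τ m))
    (U : Subgroup GalQ) [Fintype (GalQ ⧸ U)] {f : M → Qb}
    (hf : ∀ u ∈ U, conjFun act u f = f) : IsEquivariant act (orbitTrace act U f) :=
  isEquivariant_of_conjFun h1 hmul (conjFun_orbitTrace hmul U hf)

end Trace

section Dedekind

/-- **Dedekind independence**, in the form used by node UB: for finitely many pairwise distinct
multiplicative characters `χ k : R →* κ`, the vectors `(χ k r)_k`, `r ∈ R`, span `κ ^ K`. -/
theorem span_range_characters_eq_top {R : Type*} [Monoid R] {κ : Type*} [Field κ]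
    {K : Type*} [Fintype K] [DecidableEq K] (χ : K → (R →* κ)) (hχ : Function.Injective χ) :
    Submodule.span κ (Set.range fun r : R => (fun k : K => χ k r)) = ⊤ := by
  by_contra hne
  obtain ⟨f, hf0, hf⟩ := Submodule.exists_le_ker_of_lt_top _ (lt_top_iff_ne_top.mpr hne)
  have hli : LinearIndependent κ (fun k : K => ((χ k : R →* κ) : R → κ)) :=
    (linearIndependent_monoidHom R κ).comp χ hχ
  have hsum : ∀ v : K → κ, f v = ∑ k, v k • f (Pi.single k 1) := by
    intro v
    conv_lhs => rw [← Finset.univ_sum_single v]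
    rw [map_sum]
    refine Finset.sum_congr rfl fun k _ => ?_
    have : (Pi.single k (v k) : K → κ) = v k • Pi.single k 1 := by
      rw [← Pi.single_smul]
      simp
    rw [this, map_smul]
  have hrel : ∑ k, f (Pi.single k 1) • ((χ k : R →* κ) : R → κ) = 0 := by
    funext r
    have h1 : f (fun k : K => χ k r) = 0 := by
      have : (fun k : K => χ k r) ∈ Submodule.span κ (Set.range fun r : R => (fun k : K => χ k r)) :=
        Submodule.subset_span ⟨r, rfl⟩
      exact hf this
    rw [hsum] at h1
    simp only [Finset.sum_apply, Pi.smul_apply, Pi.zero_apply]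
    rw [← h1]
    refine Finset.sum_congr rfl fun k _ => ?_
    simp [mul_comm]
  have hc := (Fintype.linearIndependent_iff.mp hli) _ hrel
  apply hf0
  apply LinearMap.ext
  intro v
  rw [hsum]
  simp [hc]

end Dedekind

end Fermat.Agent.S19.H859
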